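import Mathlib.Analysis.Convex.Independent
import Mathlib.LinearAlgebra.AffineSpace.FiniteDimensional
import Mathlib.Data.Nat.Choose.Basic
import Mathlib.Tactic

/-!
# Cups, caps and the happy ending theorem

Among more than `choose (a + b) a` points with distinct abscissae, no three collinear, there are
`a + 2` in a cup or `b + 2` in a cap, and either is in convex position (Erdős and Szekeres).
-/

set_option autoImplicit false

noncomputable section

open Finset

namespace FA.HappyEnding

/-- No three points of the set are collinear. -/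
def GenPos (s : Finset (ℝ × ℝ)) : Prop :=
  ∀ a ∈ s, ∀ b ∈ s, ∀ c ∈ s, a ≠ b → b ≠ c → a ≠ c → ¬Collinear ℝ ({a, b, c} : Set (ℝ × ℝ))

/-- The gradient of the segment between two points. -/
def grad (p q : ℝ × ℝ) : ℝ := (q.2 - p.2) / (q.1 - p.1)

/-- `k` points of `s` from left to right with gradients increasing (`σ = 1`) or decreasing
(`σ = -1`). -/
def IsArc (σ : ℝ) (s : Finset (ℝ × ℝ)) (k : ℕ) (x : ℕ → ℝ × ℝ) : Prop :=
  (∀ i < k, x i ∈ s) ∧ (∀ i, i + 1 < k → (x i).1 < (x (i + 1)).1) ∧
    ∀ i, i + 2 < k → σ * grad (x i) (x (i + 1)) < σ * grad (x (i + 1)) (x (i + 2))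

theorem IsArc.mono {σ : ℝ} {s t : Finset (ℝ × ℝ)} {k : ℕ} {x : ℕ → ℝ × ℝ} (h : IsArc σ s k x)
    (hst : s ⊆ t) : IsArc σ t k x :=
  ⟨fun i hi => hst (h.1 i hi), h.2⟩

theorem exists_two {σ : ℝ} {s : Finset (ℝ × ℝ)} (hinj : Set.InjOn Prod.fst (s : Set (ℝ × ℝ)))
    (hs : 1 < #s) : ∃ x, IsArc σ s 2 x := by
  obtain ⟨p, hp, q, hq, hpq⟩ := one_lt_card.1 hs
  wlog hlt : p.1 < q.1 generalizing p q
  · exact this q hq p hp hpq.symm
      ((not_lt.1 hlt).lt_of_ne fun e => hpq (hinj hp hq e.symm))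
  refine ⟨fun i => if i = 0 then p else q, fun i _ => ?_, fun i hi => ?_, fun i hi => by omega⟩
  · by_cases h : i = 0 <;> simp [h, hp, hq]
  · obtain rfl : i = 0 := by omega
    simpa using hlt

theorem collinear_of_grad_eq {p q r : ℝ × ℝ} (hpq : p.1 < q.1) (hqr : q.1 < r.1)
    (h : grad p q = grad q r) : Collinear ℝ ({p, q, r} : Set (ℝ × ℝ)) := by
  rw [collinear_iff_of_mem (Set.mem_insert p _)]
  refine ⟨(1, grad p q), fun z hz => ⟨z.1 - p.1, ?_⟩⟩
  have h1 : q.2 - p.2 = (q.1 - p.1) * grad p q := by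
    rw [grad, mul_div_cancel₀ _ (sub_pos.2 hpq).ne']
  have h2 : r.2 - q.2 = (r.1 - q.1) * grad q r := by
    rw [grad, mul_div_cancel₀ _ (sub_pos.2 hqr).ne']
  rw [← h] at h2
  rcases hz with rfl | rfl | rfl <;> ext <;> simp only [vadd_eq_add, Prod.fst_add, Prod.snd_add,
    Prod.smul_fst, Prod.smul_snd, smul_eq_mul] <;> linarith

/-- **The theorem on cups and caps.** -/
theorem cup_or_cap : ∀ (a b : ℕ) (s : Finset (ℝ × ℝ)), Set.InjOn Prod.fst (s : Set (ℝ × ℝ)) →
    GenPos s → (a + b).choose a < #s →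
      (∃ x, IsArc 1 s (a + 2) x) ∨ ∃ x, IsArc (-1) s (b + 2) x := by
  classical
  intro a
  induction a with
  | zero => exact fun b s hinj _ hs => Or.inl (exists_two hinj (by simpa using hs))
  | succ a iha =>
    intro b
    induction b with
    | zero => exact fun s hinj _ hs => Or.inr (exists_two hinj (by simpa using hs))
    | succ b ihb =>
      intro s hinj hgen hs
      let E := s.filter fun q => ∃ x, IsArc 1 s (a + 2) x ∧ x (a + 1) = q
      have hEs : E ⊆ s := filter_subset _ _
      have hsplit : #(s \ E) + #E = #s := card_sdiff_add_card_eq_card hEs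
      rw [show a + 1 + (b + 1) = a + b + 1 + 1 by omega, Nat.choose_succ_succ'] at hs
      by_cases hbig : (a + (b + 1)).choose a < #(s \ E)
      · rcases iha (b + 1) (s \ E) (hinj.mono (coe_subset.2 sdiff_subset))
          (fun p hp q hq r hr => hgen p (sdiff_subset hp) q (sdiff_subset hq) r (sdiff_subset hr))
          hbig with ⟨x, hx⟩ | ⟨x, hx⟩
        · have hmem := hx.1 (a + 1) (by omega)
          rw [mem_sdiff] at hmem
          exact absurd (mem_filter.2 ⟨hmem.1, x, hx.mono sdiff_subset, rfl⟩) hmem.2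
        · exact Or.inr ⟨x, hx.mono sdiff_subset⟩
      · rw [show a + (b + 1) = a + b + 1 by omega] at hbig
        rcases ihb E (hinj.mono (coe_subset.2 hEs))
          (fun p hp q hq r hr => hgen p (hEs hp) q (hEs hq) r (hEs hr))
          (by rw [show a + 1 + b = a + b + 1 by omega]; omega) with ⟨x, hx⟩ | ⟨y, hy⟩
        · exact Or.inl ⟨x, hx.mono hEs⟩
        · obtain ⟨-, x, hx, hxy⟩ := mem_filter.1 (hy.1 0 (by omega))
          have h1 : (x a).1 < (y 0).1 := hxy ▸ hx.2.1 a (by omega)
          have h2 : (y 0).1 < (y 1).1 := hy.2.1 0 (by omega)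
          have hne : grad (x a) (y 0) ≠ grad (y 0) (y 1) := fun e =>
            hgen _ (hx.1 a (by omega)) _ (hEs (hy.1 0 (by omega))) _
              (hEs (hy.1 1 (by omega))) (fun h => h1.ne (congrArg Prod.fst h))
              (fun h => h2.ne (congrArg Prod.fst h))
              (fun h => (h1.trans h2).ne (congrArg Prod.fst h))
              (collinear_of_grad_eq h1 h2 e)
          rcases hne.lt_or_gt with hlt | hgt
          · refine Or.inl ⟨fun i => if i < a + 2 then x i else y 1, fun i hi => ?_, fun i hi => ?_,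
              fun i hi => ?_⟩
            · dsimp only
              split_ifs with h
              exacts [hx.1 i h, hEs (hy.1 1 (by omega))]
            · rcases Nat.lt_or_ge (i + 1) (a + 2) with h | h
              · simpa [h, show i < a + 2 by omega] using hx.2.1 i h
              · obtain rfl : i = a + 1 := by omega
                simpa [hxy] using h2
            · rcases Nat.lt_or_ge (i + 2) (a + 2) with h | h
              · simpa [h, show i < a + 2 by omega, show i + 1 < a + 2 by omega] using hx.2.2 i h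
              · obtain rfl : i = a := by omega
                simpa [hxy] using hlt
          · refine Or.inr ⟨fun i => if i = 0 then x a else y (i - 1), fun i hi => ?_,
              fun i hi => ?_, fun i hi => ?_⟩
            · dsimp only
              split_ifs with h
              exacts [hx.1 a (by omega), hEs (hy.1 _ (by omega))]
            · rcases i with _ | i
              · simpa using h1
              · simpa using hy.2.1 i (by omega)
            · rcases i with _ | i
              · simpa using hgt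
              · simpa using hy.2.2 i (by omega)

theorem lt_of_succ {g : ℕ → ℝ} {lo hi : ℕ} (h : ∀ j, lo ≤ j → j < hi → g j < g (j + 1)) :
    ∀ i j, lo ≤ i → i < j → j ≤ hi → g i < g j := by
  intro i j hi' hij
  induction j, hij using Nat.le_induction with
  | base => exact fun hj => h i hi' (by omega)
  | succ j hij ih => exact fun hj => (ih (by omega)).trans (h j (by omega) (by omega))

/-- The points of an arc are in convex position. -/
theorem IsArc.convexIndependent {σ : ℝ} {s : Finset (ℝ × ℝ)} {k : ℕ} {x : ℕ → ℝ × ℝ}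
    (h : IsArc σ s k x) :
    ∃ t ⊆ s, #t = k ∧ ConvexIndependent ℝ ((↑) : ↥(t : Set (ℝ × ℝ)) → ℝ × ℝ) := by
  classical
  have hX : ∀ i j, i < j → j < k → (x i).1 < (x j).1 := fun i j hij hj =>
    lt_of_succ (g := fun j => (x j).1) (lo := 0) (hi := k - 1)
      (fun j _ hj => h.2.1 j (by omega)) i j (Nat.zero_le i) hij (by omega)
  have hXinj : ∀ i < k, ∀ j < k, x i = x j → i = j := fun i hi j hj e => by
    rcases lt_trichotomy i j with hlt | rfl | hlt
    · exact absurd (congrArg Prod.fst e) (hX i j hlt hj).ne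
    · rfl
    · exact absurd (congrArg Prod.fst e) (hX j i hlt hi).ne'
  refine ⟨(range k).image x, fun p hp => ?_, ?_, ?_⟩
  · obtain ⟨i, hi, rfl⟩ := mem_image.1 hp
    exact h.1 i (mem_range.1 hi)
  · rw [card_image_of_injOn fun i hi j hj e => hXinj i (mem_range.1 hi) j (mem_range.1 hj) e,
      card_range]
  rw [convexIndependent_set_iff_notMem_convexHull_sdiff]
  intro p hp hmem
  obtain ⟨i, hi, rfl⟩ := mem_image.1 (mem_coe.1 hp)
  rw [mem_range] at hi
  suffices hφ : ∃ α β : ℝ, ∀ j < k, j ≠ i →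
      α * (x i).1 + β * (x i).2 < α * (x j).1 + β * (x j).2 by
    obtain ⟨α, β, hφ⟩ := hφ
    let φ : ℝ × ℝ →ₗ[ℝ] ℝ := α • LinearMap.fst ℝ ℝ ℝ + β • LinearMap.snd ℝ ℝ ℝ
    refine lt_irrefl (φ (x i)) (convexHull_min (t := {q | φ (x i) < φ q}) ?_
      (convex_halfSpace_gt φ.isLinear _) hmem)
    rintro q ⟨hq, hqi⟩
    obtain ⟨j, hj, rfl⟩ := mem_image.1 (mem_coe.1 hq)
    simpa [φ] using hφ j (mem_range.1 hj) fun e => hqi (by simp [e])
  rcases Nat.eq_zero_or_pos i with rfl | hi0
  · exact ⟨1, 0, fun j hj hne => by simpa using hX 0 j (Nat.pos_of_ne_zero hne) hj⟩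
  rcases Nat.lt_or_ge (i + 1) k with hik | hik
  swap
  · exact ⟨-1, 0, fun j hj hne => by simpa using hX j i (by omega) hi⟩
  set d : ℕ → ℝ := fun j => σ * grad (x j) (x (j + 1)) with hd
  set m := (d (i - 1) + d i) / 2 with hm
  have hdmono : ∀ j l, j < l → l + 1 < k → d j < d l := fun j l hjl hl =>
    lt_of_succ (lo := 0) (hi := k - 2) (fun j _ hj => h.2.2 j (by omega)) j l (Nat.zero_le j) hjl
      (by omega)
  set g : ℕ → ℝ := fun j => -m * (x j).1 + σ * (x j).2 with hg
  have hstep : ∀ j, j + 1 < k → g (j + 1) - g j = ((x (j + 1)).1 - (x j).1) * (d j - m) := by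
    intro j hj
    have := (sub_pos.2 (h.2.1 j hj)).ne'
    simp only [hg, hd, grad]
    field_simp
    ring
  have hlow := hdmono (i - 1) i (by omega) hik
  refine ⟨-m, σ, fun j hj hne => ?_⟩
  show g i < g j
  rcases lt_or_gt_of_ne hne with hji | hij
  · refine neg_lt_neg_iff.1 (lt_of_succ (g := fun j => -g j) (lo := 0) (hi := i) (fun l _ hl => ?_)
      j i (Nat.zero_le j) hji le_rfl)
    have := hstep l (by omega)
    have hle : d l ≤ d (i - 1) := by
      rcases (show l ≤ i - 1 by omega).eq_or_lt with rfl | hl'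
      exacts [le_rfl, (hdmono l (i - 1) hl' (by omega)).le]
    have : ((x (l + 1)).1 - (x l).1) * (d l - m) < 0 :=
      mul_neg_of_pos_of_neg (sub_pos.2 (h.2.1 l (by omega))) (by linarith)
    linarith
  · refine lt_of_succ (lo := i) (hi := k - 1) (fun l hl hlk => ?_) i j le_rfl hij (by omega)
    have := hstep l (by omega)
    have hle : d i ≤ d l := by
      rcases hl.eq_or_lt with rfl | hl'
      exacts [le_rfl, (hdmono i l hl' (by omega)).le]
    have : 0 < ((x (l + 1)).1 - (x l).1) * (d l - m) :=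
      mul_pos (sub_pos.2 (h.2.1 l (by omega))) (by linarith)
    linarith

theorem collinear_image (L : ℝ × ℝ →ₗ[ℝ] ℝ × ℝ) {A : Set (ℝ × ℝ)} (h : Collinear ℝ A) :
    Collinear ℝ (L '' A) := by
  rw [collinear_iff_exists_forall_eq_smul_vadd] at h ⊢
  obtain ⟨p₀, v, h⟩ := h
  refine ⟨L p₀, L v, ?_⟩
  rintro _ ⟨p, hp, rfl⟩
  obtain ⟨r, rfl⟩ := h p hp
  exact ⟨r, by simp⟩

/-- **The happy ending theorem.** -/
theorem happy_ending {n : ℕ} (hn : 2 ≤ n) (s : Finset (ℝ × ℝ)) (hgen : GenPos s)
    (hs : (2 * n - 4).choose (n - 2) < #s) :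
    ∃ t ⊆ s, #t = n ∧ ConvexIndependent ℝ ((↑) : ↥(t : Set (ℝ × ℝ)) → ℝ × ℝ) := by
  classical
  obtain ⟨c, hc⟩ := Infinite.exists_notMem_finset
    ((s ×ˢ s).image fun pq => -((pq.1.1 - pq.2.1) / (pq.1.2 - pq.2.2)))
  let T : (ℝ × ℝ) ≃ₗ[ℝ] (ℝ × ℝ) :=
    { toFun := fun p => (p.1 + c * p.2, p.2)
      invFun := fun p => (p.1 - c * p.2, p.2)
      map_add' := fun p q => by ext <;> simp [mul_add, add_add_add_comm]
      map_smul' := fun r p => by
        ext
        · simp; ring
        · simp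
      left_inv := fun p => by simp
      right_inv := fun p => by simp }
  have hinj : Set.InjOn Prod.fst
      ((s.map T.toEquiv.toEmbedding : Finset (ℝ × ℝ)) : Set (ℝ × ℝ)) := by
    simp only [coe_map]
    rintro _ ⟨p, hp, rfl⟩ _ ⟨q, hq, rfl⟩ (e : p.1 + c * p.2 = q.1 + c * q.2)
    rcases eq_or_ne p.2 q.2 with h2 | h2
    · rw [h2, add_left_inj] at e
      rw [Prod.ext e h2]
    · refine absurd (mem_image.2 ⟨(p, q), mem_product.2 ⟨hp, hq⟩, ?_⟩) hc
      have := sub_ne_zero.2 h2
      field_simp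
      linarith
  have hgen' : GenPos (s.map T.toEquiv.toEmbedding) := by
    intro _ hA _ hB _ hC hab hbc hac hcol
    obtain ⟨a, ha, rfl⟩ := mem_map.1 hA
    obtain ⟨b, hb, rfl⟩ := mem_map.1 hB
    obtain ⟨e, he, rfl⟩ := mem_map.1 hC
    refine hgen a ha b hb e he (fun h => hab (h ▸ rfl)) (fun h => hbc (h ▸ rfl))
      (fun h => hac (h ▸ rfl)) ?_
    simpa [Set.image_insert_eq] using collinear_image T.symm.toLinearMap hcol
  rw [show 2 * n - 4 = n - 2 + (n - 2) by omega, ← card_map T.toEquiv.toEmbedding] at hs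
  obtain ⟨σ, x, hx⟩ : ∃ σ x, IsArc σ (s.map T.toEquiv.toEmbedding) (n - 2 + 2) x :=
    (cup_or_cap _ _ _ hinj hgen' hs).elim (fun h => ⟨1, h⟩) fun h => ⟨-1, h⟩
  obtain ⟨t, hts, htcard, ht⟩ := hx.convexIndependent
  refine ⟨t.map T.symm.toEquiv.toEmbedding, fun p hp => ?_, ?_, ?_⟩
  · obtain ⟨q, hq, rfl⟩ := mem_map.1 hp
    obtain ⟨u, hu, rfl⟩ := mem_map.1 (hts hq)
    simpa using hu
  · rw [card_map, htcard]
    omega
  rw [convexIndependent_set_iff_notMem_convexHull_sdiff] at ht ⊢
  intro p hp hmem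
  obtain ⟨q, hq, rfl⟩ := mem_map.1 (mem_coe.1 hp)
  refine ht q (mem_coe.2 hq) ?_
  have h' := Set.mem_image_of_mem T.toLinearMap hmem
  rw [LinearMap.image_convexHull] at h'
  refine convexHull_mono ?_ (by simpa using h')
  rintro z ⟨w, ⟨hw, hwq⟩, rfl⟩
  obtain ⟨u, hu, rfl⟩ := hw
  exact ⟨by simpa using hu, fun e => hwq (by simpa using e)⟩

end FA.HappyEnding

end
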